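/-
Lindemann - Weierstrass: Galois-invariant relations (helper85).
-/
import Mathlib

/-!
# The Lindemann - Weierstrass theorem, I: relations which are invariant under the Galois group

`L` is a Galois number field with an embedding `φ` in `ℂ`, `S` a finite set of non-zero elements which
is stable under `Gal(L/ℚ)`, and `c` a function with integral values which is constant on the orbits.
Then `c₀ + ∑ c(γ) exp(φ γ) ≠ 0` for every integer `c₀ ≠ 0` (`sum_ne_zero`). The analytic part is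
Mathlib's `LindemannWeierstrass.exp_polynomial_approx`.
-/

namespace Fermat.Agent.Cor.LW

open Polynomial

variable {L : Type*} [Field L] [Algebra ℚ L] [FiniteDimensional ℚ L]

/-- A non-zero algebraic number is a root of an integral polynomial with non-zero constant term. -/
lemma exists_poly {γ : L} (hγ : γ ≠ 0) : ∃ f : ℤ[X], aeval γ f = 0 ∧ f.eval 0 ≠ 0 := by
  have hint : IsIntegral ℚ γ := IsIntegral.of_finite ℚ γ
  have h0 := minpoly.coeff_zero_ne_zero hint hγ
  obtain ⟨b, hb, e⟩ :=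
    IsLocalization.integerNormalization_spec (nonZeroDivisors ℤ) (minpoly ℚ γ)
  refine ⟨IsLocalization.integerNormalization (nonZeroDivisors ℤ) (minpoly ℚ γ),
    IsLocalization.integerNormalization_aeval_eq_zero _ _ (minpoly.aeval ℚ γ), ?_⟩
  have h1 := congrArg (fun P : ℚ[X] => P.coeff 0) e
  simp only [coeff_map, coeff_smul] at h1
  intro h2
  rw [← coeff_zero_eq_eval_zero] at h2
  rw [h2, map_zero] at h1
  have hb0 : b ≠ 0 := nonZeroDivisors.ne_zero hb
  rcases smul_eq_zero.1 h1.symm with h3 | h3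
  · exact hb0 h3
  · exact h0 h3

/-- A common polynomial for a finite set. -/
lemma exists_poly_finset {S : Finset L} (hS : (0 : L) ∉ S) :
    ∃ f : ℤ[X], (∀ γ ∈ S, aeval γ f = 0) ∧ f.eval 0 ≠ 0 := by
  classical
  have h : ∀ γ : L, ∃ f : ℤ[X], γ ∈ S → aeval γ f = 0 ∧ f.eval 0 ≠ 0 := by
    intro γ
    by_cases hγ : γ ∈ S
    · obtain ⟨f, hf⟩ := exists_poly (γ := γ) (by rintro rfl; exact hS hγ)
      exact ⟨f, fun _ => hf⟩
    · exact ⟨0, fun h => absurd h hγ⟩
  choose f hf using h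
  refine ⟨∏ γ ∈ S, f γ, fun γ hγ => ?_, ?_⟩
  · rw [map_prod]
    exact Finset.prod_eq_zero hγ (hf γ hγ).1
  · rw [eval_prod]
    exact Finset.prod_ne_zero_iff.2 fun γ hγ => (hf γ hγ).2

omit [Algebra ℚ L] [FiniteDimensional ℚ L] in
/-- Clearing denominators in the value of an integral polynomial. -/
lemma isIntegral_pow_smul_aeval {a : ℤ} {γ : L} (h : IsIntegral ℤ (a • γ)) (g : ℤ[X]) {N : ℕ}
    (hN : g.natDegree ≤ N) : IsIntegral ℤ (a ^ N • aeval γ g) := by
  rw [aeval_eq_sum_range' (Nat.lt_succ_of_le hN), Finset.smul_sum]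
  apply IsIntegral.sum
  intro j hj
  have hj' : j ≤ N := Nat.lt_succ_iff.1 (Finset.mem_range.1 hj)
  have e : a ^ N • g.coeff j • γ ^ j = ((g.coeff j * a ^ (N - j) : ℤ) : L) * (a • γ) ^ j := by
    have h1 : a ^ N = a ^ (N - j) * a ^ j := by rw [← pow_add, Nat.sub_add_cancel hj']
    rw [h1]
    simp only [zsmul_eq_mul]
    push_cast
    ring
  rw [e]
  exact (isIntegral_algebraMap (R := ℤ) (A := L) (x := g.coeff j * a ^ (N - j))).mul (h.pow j)

/-- The main estimate in the form in which it is used: for every constant `C` and `K` the number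
`C * (K ^ p / (p - 1)!)` is small for large `p`. -/
lemma exists_prime_small (C K : ℝ) (B : ℕ) : ∃ p : ℕ, p.Prime ∧ B < p ∧
    C * (K ^ p / (p - 1).factorial) < 1 := by
  have h1 := (FloorSemiring.tendsto_pow_div_factorial_atTop K).const_mul (C * K)
  rw [mul_zero] at h1
  have h2 := h1.eventually (gt_mem_nhds (zero_lt_one' ℝ))
  obtain ⟨N, hN⟩ := Filter.eventually_atTop.1 h2
  obtain ⟨p, hp1, hp⟩ := Nat.exists_infinite_primes (N + B + 2)
  refine ⟨p, hp, by omega, ?_⟩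
  have h3 := hN (p - 1) (by omega)
  have h4 : C * (K ^ p / (p - 1).factorial) = C * K * (K ^ (p - 1) / (p - 1).factorial) := by
    have : K ^ p = K * K ^ (p - 1) := by
      rw [← pow_succ', Nat.sub_add_cancel hp.one_le]
    rw [this]; ring
  rw [h4]
  exact h3

variable [IsGalois ℚ L]

/-- **Invariant relations do not exist.** -/
theorem sum_ne_zero (φ : L →+* ℂ) {S : Finset L} (h0 : (0 : L) ∉ S)
    (hS : ∀ (σ : Gal(L/ℚ)) (γ : L), γ ∈ S → σ γ ∈ S) (c : L → ℤ)
    (hc : ∀ (σ : Gal(L/ℚ)) (γ : L), c (σ γ) = c γ) {c₀ : ℤ} (hc₀ : c₀ ≠ 0) :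
    (c₀ : ℂ) + ∑ γ ∈ S, (c γ : ℂ) * Complex.exp (φ γ) ≠ 0 := by
  classical
  intro hE
  have : CharZero L := algebraRat.charZero L
  obtain ⟨f, hf, hf0⟩ := exists_poly_finset h0
  have hfne : f ≠ 0 := by rintro rfl; simp at hf0
  obtain ⟨a, ha0, ha⟩ := exists_integral_multiples ℤ ℚ S
  obtain ⟨C, hC⟩ := LindemannWeierstrass.exp_polynomial_approx f hf0
  set d := f.natDegree with hd
  set A : ℝ := ∑ γ ∈ S, |(c γ : ℝ)| with hA
  have hA0 : 0 ≤ A := Finset.sum_nonneg fun _ _ => abs_nonneg _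
  obtain ⟨p, hp, hpB, hsmall⟩ := exists_prime_small A (|(a : ℝ)| ^ d * |C|)
    ((f.eval 0).natAbs + a.natAbs + c₀.natAbs)
  obtain ⟨n, hn, g, hg, happ⟩ := hC p (by omega) hp
  set N := p * d with hN
  have hgN : g.natDegree ≤ N := by omega
  have haev : ∀ γ : L, aeval (φ γ) g = φ (aeval γ g) := fun γ =>
    aeval_algHom_apply (φ.toIntAlgHom) γ g
  -- the invariant sum
  set T : L := ∑ γ ∈ S, (c γ : L) * aeval γ g with hT
  have hfix : ∀ σ : Gal(L/ℚ), σ T = T := by
    intro σ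
    rw [hT, map_sum]
    have h1 : ∀ γ ∈ S, σ ((c γ : L) * aeval γ g) = (c (σ γ) : L) * aeval (σ γ) g := by
      intro γ _
      rw [map_mul, map_intCast, hc]
      congr 1
      exact (aeval_algHom_apply ((σ : L →+* L).toIntAlgHom) γ g).symm
    rw [Finset.sum_congr rfl h1]
    refine Finset.sum_bij (fun γ _ => σ γ) (fun γ hγ => hS σ γ hγ) (fun _ _ _ _ h => σ.injective h)
      (fun γ hγ => ⟨σ.symm γ, hS σ.symm γ hγ, σ.apply_symm_apply γ⟩) (fun γ _ => rfl)
  obtain ⟨q, hq⟩ := (IsGalois.mem_range_algebraMap_iff_fixed T).2 hfix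
  have hTint : IsIntegral ℤ (a ^ N • T) := by
    rw [hT, Finset.smul_sum]
    apply IsIntegral.sum
    intro γ hγ
    have e : a ^ N • ((c γ : L) * aeval γ g) = (c γ : L) * (a ^ N • aeval γ g) := by
      simp only [zsmul_eq_mul]; ring
    rw [e]
    exact (isIntegral_algebraMap (R := ℤ) (A := L) (x := c γ)).mul
      (isIntegral_pow_smul_aeval (ha γ hγ) g hgN)
  obtain ⟨M, hM⟩ : ∃ M : ℤ, a ^ N • T = (M : L) := by
    have h1 : a ^ N • T = algebraMap ℚ L ((a : ℚ) ^ N * q) := by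
      rw [map_mul, hq, map_pow, map_intCast, zsmul_eq_mul, Int.cast_pow]
    rw [h1] at hTint
    have h2 : IsIntegral ℤ ((a : ℚ) ^ N * q) :=
      (isIntegral_algebraMap_iff (algebraMap ℚ L).injective).1 hTint
    obtain ⟨M, hM⟩ := IsIntegrallyClosed.isIntegral_iff.1 h2
    refine ⟨M, ?_⟩
    rw [h1, ← hM]
    simp
  -- the error terms
  have hterm : ∀ γ ∈ S, ‖(n : ℂ) * Complex.exp (φ γ) - (p : ℂ) * φ (aeval γ g)‖ ≤
      |C| ^ p / (p - 1).factorial := by
    intro γ hγ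
    have h1 : φ γ ∈ f.aroots ℂ := by
      rw [mem_aroots]
      refine ⟨hfne, ?_⟩
      have : aeval (φ γ) f = φ (aeval γ f) := aeval_algHom_apply (φ.toIntAlgHom) γ f
      rw [this, hf γ hγ, map_zero]
    have h2 := happ h1
    rw [haev, zsmul_eq_mul, nsmul_eq_mul] at h2
    exact h2.trans (div_le_div_of_nonneg_right ((le_abs_self _).trans (by rw [abs_pow]))
      (by positivity))
  have hφT : (a : ℂ) ^ N * φ T = (M : ℂ) := by
    have := congrArg φ hM
    rwa [zsmul_eq_mul, map_mul, map_intCast, map_intCast, Int.cast_pow] at this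
  have hφT2 : φ T = ∑ γ ∈ S, (c γ : ℂ) * φ (aeval γ g) := by
    rw [hT, map_sum]
    exact Finset.sum_congr rfl fun γ _ => by rw [map_mul, map_intCast]
  have hkey : (((a ^ N * (n * c₀) + p * M : ℤ)) : ℂ) = -((a : ℂ) ^ N *
      ∑ γ ∈ S, (c γ : ℂ) * ((n : ℂ) * Complex.exp (φ γ) - (p : ℂ) * φ (aeval γ g))) := by
    have h1 : ∑ γ ∈ S, (c γ : ℂ) * ((n : ℂ) * Complex.exp (φ γ) - (p : ℂ) * φ (aeval γ g)) =
        n * (∑ γ ∈ S, (c γ : ℂ) * Complex.exp (φ γ)) - p * φ T := by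
      rw [hφT2, Finset.mul_sum, Finset.mul_sum, ← Finset.sum_sub_distrib]
      exact Finset.sum_congr rfl fun γ _ => by ring
    have h2 : ∑ γ ∈ S, (c γ : ℂ) * Complex.exp (φ γ) = -(c₀ : ℂ) := by
      linear_combination hE
    rw [h1, h2]
    push_cast
    linear_combination (-(p : ℂ)) * hφT
  have hnorm : ‖(((a ^ N * (n * c₀) + p * M : ℤ)) : ℂ)‖ < 1 := by
    rw [hkey, norm_neg, norm_mul, norm_pow]
    have h1 : ‖∑ γ ∈ S, (c γ : ℂ) * ((n : ℂ) * Complex.exp (φ γ) - (p : ℂ) * φ (aeval γ g))‖ ≤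
        A * (|C| ^ p / (p - 1).factorial) := by
      refine (norm_sum_le _ _).trans ?_
      rw [hA, Finset.sum_mul]
      apply Finset.sum_le_sum
      intro γ hγ
      rw [norm_mul]
      have : ‖((c γ : ℤ) : ℂ)‖ = |(c γ : ℝ)| := Complex.norm_intCast _
      rw [this]
      exact mul_le_mul_of_nonneg_left (hterm γ hγ) (abs_nonneg _)
    have h2 : ‖((a : ℤ) : ℂ)‖ = |(a : ℝ)| := by
      rw [Complex.norm_intCast]
    rw [h2]
    calc |(a : ℝ)| ^ N * ‖∑ γ ∈ S, (c γ : ℂ) * ((n : ℂ) * Complex.exp (φ γ) -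
          (p : ℂ) * φ (aeval γ g))‖
        ≤ |(a : ℝ)| ^ N * (A * (|C| ^ p / (p - 1).factorial)) :=
          mul_le_mul_of_nonneg_left h1 (by positivity)
      _ = A * ((|(a : ℝ)| ^ d * |C|) ^ p / (p - 1).factorial) := by
          rw [hN, mul_pow, ← pow_mul, mul_comm d p]; ring
      _ < 1 := hsmall
  -- but it is a non-zero integer
  have hne : a ^ N * (n * c₀) + p * M ≠ 0 := by
    intro h
    have h1 : (p : ℤ) ∣ a ^ N * (n * c₀) := by
      have : a ^ N * (n * c₀) = p * (-M) := by linarith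
      exact ⟨-M, this⟩
    have hpp := Nat.prime_iff_prime_int.1 hp
    have hsm : ∀ x : ℤ, x ≠ 0 → x.natAbs < p → ¬ (p : ℤ) ∣ x := by
      intro x hx hlt hd
      have h1 : p ∣ x.natAbs := Int.natCast_dvd.1 hd
      have := Nat.le_of_dvd (Int.natAbs_pos.2 hx) h1
      omega
    rcases hpp.dvd_or_dvd h1 with h2 | h2
    · exact hsm a ha0 (by omega) (hpp.dvd_of_dvd_pow h2)
    · rcases hpp.dvd_or_dvd h2 with h3 | h3
      · exact hn h3
      · exact hsm c₀ hc₀ (by omega) h3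
  have hge : (1 : ℝ) ≤ ‖(((a ^ N * (n * c₀) + p * M : ℤ)) : ℂ)‖ := by
    rw [Complex.norm_intCast]
    have := Int.one_le_abs hne
    exact_mod_cast this
  linarith

end Fermat.Agent.Cor.LW
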