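/-
Lindemann - Weierstrass: the group algebra (helper85).
-/
import Fermat.Agent.Corollaries.LW.Analytic

/-!
# The Lindemann - Weierstrass theorem, II: the group algebra

`L` is a Galois number field with an embedding `φ` in `ℂ`. A finite sum `∑ φ(b) exp(φ γ)` is the value
`ev φ F` of an element `F` of the group algebra `L[L]`. The group algebra has no zero divisors, so the
products `nc F` and `nd F` of the conjugates of `F ≠ 0` (the Galois group acts on the coefficients
and on the exponents) are not zero, and `G(x) G(-x)` has the constant term `∑ c²` if the coefficients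
`c` of `G` are rational. So `ev φ F = 0` would give a relation which is excluded by
`LW.sum_ne_zero`: `ev_ne_zero`.
-/

namespace Fermat.Agent.Cor.LW

open AddMonoidAlgebra

variable {L : Type*} [Field L]

/-- The homomorphism `γ ↦ exp (φ γ)`. -/
noncomputable def expHom (φ : L →+* ℂ) : Multiplicative L →* ℂ where
  toFun x := Complex.exp (φ x.toAdd)
  map_one' := by simp
  map_mul' x y := by simp [Complex.exp_add]

/-- The value `∑ φ(b) exp(φ γ)` of an element of the group algebra. -/
noncomputable def ev (φ : L →+* ℂ) : AddMonoidAlgebra L L →+* ℂ :=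
  liftNCRingHom φ (expHom φ) (fun _ _ => Commute.all _ _)

lemma ev_single (φ : L →+* ℂ) (γ c : L) : ev φ (single γ c) = φ c * Complex.exp (φ γ) :=
  liftNCRingHom_single _ _ _ _ _

lemma ev_eq (φ : L →+* ℂ) (F : AddMonoidAlgebra L L) :
    ev φ F = ∑ γ ∈ F.coeff.support, φ (F.coeff γ) * Complex.exp (φ γ) := by
  conv_lhs => rw [← sum_coeff_single F, Finsupp.sum, map_sum]
  exact Finset.sum_congr rfl fun γ _ => ev_single _ _ _

lemma coeff_md {f : L →+ L} (hf : Function.Injective f) (F : AddMonoidAlgebra L L) (γ : L) :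
    (mapDomainRingHom L f F).coeff (f γ) = F.coeff γ :=
  Finsupp.mapDomain_apply hf _ _

lemma md_ne_zero {f : L →+ L} (hf : Function.Injective f) {F : AddMonoidAlgebra L L}
    (hF : F ≠ 0) : mapDomainRingHom L f F ≠ 0 := by
  intro h
  apply hF
  ext γ
  rw [← coeff_md hf, h]
  rfl

lemma mc_ne_zero {f : L →+* L} {F : AddMonoidAlgebra L L} (hF : F ≠ 0) :
    mapRingHom L f F ≠ 0 := by
  intro h
  apply hF
  ext γ
  have h1 := congrArg (fun G => G.coeff γ) h
  simp only [coeff_mapRingHom] at h1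
  exact f.injective (h1.trans (map_zero f).symm)

lemma mc_md (f : L →+* L) (g : L →+ L) (F : AddMonoidAlgebra L L) :
    mapRingHom L f (mapDomainRingHom L g F) = mapDomainRingHom L g (mapRingHom L f F) :=
  DFunLike.congr_fun (mapRingHom_comp_mapDomainRingHom f g) F

variable [Algebra ℚ L] [FiniteDimensional ℚ L]

/-- The product of the conjugates, action on the coefficients. -/
noncomputable def nc (F : AddMonoidAlgebra L L) : AddMonoidAlgebra L L :=
  ∏ σ : Gal(L/ℚ), mapRingHom L (σ : L →+* L) F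

/-- The product of the conjugates, action on the exponents. -/
noncomputable def nd (F : AddMonoidAlgebra L L) : AddMonoidAlgebra L L :=
  ∏ σ : Gal(L/ℚ), mapDomainRingHom L ((σ : L →+* L) : L →+ L) F

lemma mc_nc (τ : Gal(L/ℚ)) (F : AddMonoidAlgebra L L) :
    mapRingHom L (τ : L →+* L) (nc F) = nc F := by
  rw [nc, map_prod]
  refine Fintype.prod_equiv (Equiv.mulLeft τ) _ _ fun σ => ?_
  ext γ
  simp

lemma md_nd (τ : Gal(L/ℚ)) (F : AddMonoidAlgebra L L) :
    mapDomainRingHom L ((τ : L →+* L) : L →+ L) (nd F) = nd F := by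
  rw [nd, map_prod]
  refine Fintype.prod_equiv (Equiv.mulLeft τ) _ _ fun σ => ?_
  have h := DFunLike.congr_fun (mapDomainRingHom_comp (R := L) ((τ : L →+* L) : L →+ L)
    ((σ : L →+* L) : L →+ L)) F
  exact h.symm

lemma mc_nd (τ : Gal(L/ℚ)) {F : AddMonoidAlgebra L L} (hF : mapRingHom L (τ : L →+* L) F = F) :
    mapRingHom L (τ : L →+* L) (nd F) = nd F := by
  rw [nd, map_prod]
  refine Finset.prod_congr rfl fun σ _ => ?_
  rw [mc_md, hF]

lemma nc_ne_zero {F : AddMonoidAlgebra L L} (hF : F ≠ 0) : nc F ≠ 0 :=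
  Finset.prod_ne_zero_iff.2 fun _ _ => mc_ne_zero hF

lemma nd_ne_zero {F : AddMonoidAlgebra L L} (hF : F ≠ 0) : nd F ≠ 0 :=
  Finset.prod_ne_zero_iff.2 fun σ _ => md_ne_zero (f := ((σ : L →+* L) : L →+ L))
    (σ : L →+* L).injective hF

lemma ev_nc {φ : L →+* ℂ} {F : AddMonoidAlgebra L L} (h : ev φ F = 0) : ev φ (nc F) = 0 := by
  rw [nc, map_prod]
  refine Finset.prod_eq_zero (Finset.mem_univ (1 : Gal(L/ℚ))) ?_
  have : mapRingHom L ((1 : Gal(L/ℚ)) : L →+* L) F = F := by
    ext γ; simp
  rw [this, h]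

lemma ev_nd {φ : L →+* ℂ} {F : AddMonoidAlgebra L L} (h : ev φ F = 0) : ev φ (nd F) = 0 := by
  rw [nd, map_prod]
  refine Finset.prod_eq_zero (Finset.mem_univ (1 : Gal(L/ℚ))) ?_
  have : mapDomainRingHom L (((1 : Gal(L/ℚ)) : L →+* L) : L →+ L) F = F := by
    have h1 := DFunLike.congr_fun (mapDomainRingHom_id (R := L) (M := L)) F
    exact h1
  rw [this, h]

omit [Field L] [Algebra ℚ L] [FiniteDimensional ℚ L] in
/-- A common denominator of finitely many rational numbers. -/
lemma exists_common_den (s : Finset L) (q : L → ℚ) (hq : ∀ γ, γ ∉ s → q γ = 0) :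
    ∃ (D : ℤ) (c : L → ℤ), D ≠ 0 ∧ ∀ γ, ((c γ : ℤ) : ℚ) = D * q γ := by
  classical
  obtain ⟨P, hP⟩ : ∃ P : ℤ, P = ∏ γ ∈ s, ((q γ).den : ℤ) := ⟨_, rfl⟩
  refine ⟨P, fun γ => ((P : ℚ) * q γ).num, ?_, fun γ => ?_⟩
  · rw [hP]
    exact Finset.prod_ne_zero_iff.2 fun γ _ => by exact_mod_cast (q γ).den_ne_zero
  · by_cases hγ : γ ∈ s
    · obtain ⟨k, hk⟩ : ((q γ).den : ℤ) ∣ P := by
        rw [hP]
        exact Finset.dvd_prod_of_mem (fun γ => ((q γ).den : ℤ)) hγ
      have h1 : (P : ℚ) * q γ = ((k * (q γ).num : ℤ) : ℚ) := by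
        rw [hk]
        push_cast
        have := Rat.mul_den_eq_num (q γ)
        linear_combination (k : ℚ) * this
      change ((((P : ℚ) * q γ).num : ℤ) : ℚ) = _
      rw [h1, Rat.num_intCast]
    · change ((((P : ℚ) * q γ).num : ℤ) : ℚ) = _
      rw [hq γ hγ, mul_zero]; simp

variable [IsGalois ℚ L]

/-- **The Lindemann - Weierstrass theorem**, group algebra form. -/
theorem ev_ne_zero (φ : L →+* ℂ) {F : AddMonoidAlgebra L L} (hF : F ≠ 0) : ev φ F ≠ 0 := by
  classical
  intro hev
  have : CharZero L := algebraRat.charZero L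
  -- rational coefficients, then invariant exponents
  set G := nd (nc F) with hG
  have hG0 : G ≠ 0 := nd_ne_zero (nc_ne_zero hF)
  have hGev : ev φ G = 0 := ev_nd (ev_nc hev)
  have hGc : ∀ τ : Gal(L/ℚ), mapRingHom L (τ : L →+* L) G = G := fun τ => mc_nd τ (mc_nc τ F)
  have hGd : ∀ τ : Gal(L/ℚ), mapDomainRingHom L ((τ : L →+* L) : L →+ L) G = G := fun τ =>
    md_nd τ _
  have hrat : ∀ (P : AddMonoidAlgebra L L), (∀ τ : Gal(L/ℚ), mapRingHom L (τ : L →+* L) P = P) →
      ∀ γ, ∃ q : ℚ, algebraMap ℚ L q = P.coeff γ := by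
    intro P hP γ
    apply (IsGalois.mem_range_algebraMap_iff_fixed (F := ℚ) (P.coeff γ)).2
    intro τ
    have h1 := congrArg (fun Q => Q.coeff γ) (hP τ)
    simpa using h1
  -- the constant term
  set N : L →+ L := negAddMonoidHom with hN
  have hNinj : Function.Injective N := neg_injective
  set H := G * mapDomainRingHom L N G with hH
  have hHev : ev φ H = 0 := by rw [hH, map_mul, hGev, zero_mul]
  have hHc : ∀ τ : Gal(L/ℚ), mapRingHom L (τ : L →+* L) H = H := by
    intro τ
    rw [hH, map_mul, mc_md, hGc]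
  have hHd : ∀ τ : Gal(L/ℚ), mapDomainRingHom L ((τ : L →+* L) : L →+ L) H = H := by
    intro τ
    have h1 : mapDomainRingHom L ((τ : L →+* L) : L →+ L) (mapDomainRingHom L N G) =
        mapDomainRingHom L N (mapDomainRingHom L ((τ : L →+* L) : L →+ L) G) := by
      have e1 := DFunLike.congr_fun (mapDomainRingHom_comp (R := L) ((τ : L →+* L) : L →+ L) N) G
      have e2 := DFunLike.congr_fun (mapDomainRingHom_comp (R := L) N ((τ : L →+* L) : L →+ L)) G
      have e3 : ((τ : L →+* L) : L →+ L).comp N = N.comp ((τ : L →+* L) : L →+ L) := by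
        ext x; simp [hN]
      rw [e3] at e1
      exact e1.symm.trans e2
    rw [hH, map_mul, h1, hGd]
  choose q hq using hrat H hHc
  have hH0 : H.coeff 0 ≠ 0 := by
    choose g hg using hrat G hGc
    have h1 : H.coeff 0 = algebraMap ℚ L (∑ γ ∈ G.coeff.support, g γ ^ 2) := by
      rw [hH, coeff_mul_apply_left, Finsupp.sum, map_sum]
      refine Finset.sum_congr rfl fun γ _ => ?_
      have h2 : (mapDomainRingHom L N G).coeff (-γ + 0) = G.coeff γ := by
        rw [add_zero]
        exact coeff_md hNinj G γ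
      rw [h2, map_pow, hg, sq]
    rw [h1, map_ne_zero_iff _ (algebraMap ℚ L).injective]
    have hsupp : G.coeff.support.Nonempty := by
      rw [Finsupp.support_nonempty_iff]
      intro h
      exact hG0 (coeff_eq_zero.1 h)
    obtain ⟨γ, hγ⟩ := hsupp
    have hpos : 0 < ∑ γ ∈ G.coeff.support, g γ ^ 2 := by
      refine Finset.sum_pos' (fun _ _ => sq_nonneg _) ⟨γ, hγ, ?_⟩
      have : g γ ≠ 0 := by
        intro h0
        have := hg γ
        rw [h0, map_zero] at this
        exact Finsupp.mem_support_iff.1 hγ this.symm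
      positivity
    exact hpos.ne'
  obtain ⟨D, c, hD, hc⟩ := exists_common_den H.coeff.support q (by
    intro γ hγ
    have h1 : H.coeff γ = 0 := Finsupp.notMem_support_iff.1 hγ
    have h2 := hq γ
    rw [h1] at h2
    exact (map_eq_zero_iff _ (algebraMap ℚ L).injective).1 h2)
  have hcL : ∀ γ, (c γ : L) = (D : L) * H.coeff γ := by
    intro γ
    have := congrArg (algebraMap ℚ L) (hc γ)
    rwa [map_intCast, map_mul, map_intCast, hq] at this
  have hcoe : ∀ (σ : Gal(L/ℚ)) (γ : L), H.coeff (σ γ) = H.coeff γ := by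
    intro σ γ
    have h1 := coeff_md (f := ((σ : L →+* L) : L →+ L)) (σ : L →+* L).injective H γ
    rw [hHd] at h1
    exact h1
  have hcinv : ∀ (σ : Gal(L/ℚ)) (γ : L), c (σ γ) = c γ := by
    intro σ γ
    have h1 : (c (σ γ) : L) = (c γ : L) := by rw [hcL, hcL, hcoe]
    exact_mod_cast h1
  have hc0 : c 0 ≠ 0 := by
    intro h0
    have h1 := hcL 0
    rw [h0, Int.cast_zero] at h1
    rcases mul_eq_zero.1 h1.symm with h2 | h2
    · exact hD (by exact_mod_cast h2)
    · exact hH0 h2
  refine sum_ne_zero φ (S := H.coeff.support.erase 0) (Finset.notMem_erase _ _) ?_ c hcinv hc0 ?_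
  · intro σ γ hγ
    rw [Finset.mem_erase, Finsupp.mem_support_iff] at hγ ⊢
    refine ⟨?_, by rw [hcoe]; exact hγ.2⟩
    intro h0
    exact hγ.1 (by rwa [map_eq_zero_iff _ σ.injective] at h0)
  · have h1 := ev_eq φ H
    rw [hHev] at h1
    have h0mem : (0 : L) ∈ H.coeff.support := Finsupp.mem_support_iff.2 hH0
    have h2 : ∑ γ ∈ H.coeff.support, (c γ : ℂ) * Complex.exp (φ γ) = 0 := by
      have h3 : ∑ γ ∈ H.coeff.support, (c γ : ℂ) * Complex.exp (φ γ) =
          (D : ℂ) * ∑ γ ∈ H.coeff.support, φ (H.coeff γ) * Complex.exp (φ γ) := by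
        rw [Finset.mul_sum]
        refine Finset.sum_congr rfl fun γ _ => ?_
        have := congrArg φ (hcL γ)
        rw [map_intCast, map_mul, map_intCast] at this
        rw [this]; ring
      rw [h3, ← h1, mul_zero]
    rw [← Finset.add_sum_erase _ _ h0mem] at h2
    rw [map_zero, Complex.exp_zero, mul_one] at h2
    exact h2

end Fermat.Agent.Cor.LW
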