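/-
Lindemann - Weierstrass: the theorem (helper85).
-/
import Fermat.Agent.Corollaries.LW.Algebra

/-!
# The Lindemann - Weierstrass theorem, III

* `eq_zero_of_sum_eq_zero`: distinct algebraic numbers `a i` and algebraic `b i` with
  `∑ b i exp(a i) = 0` have `b = 0` (Baker's form);
* `linearIndependent_exp`: the numbers `exp a`, `a` algebraic, are linearly independent over the field
  of algebraic numbers;
* `transcendental_exp`, `transcendental_e`, `transcendental_pi`, `transcendental_log`, ...
-/

namespace Fermat.Agent.Cor.LW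

open Polynomial

/-- Finitely many algebraic numbers lie in a common finite Galois extension. -/
lemma exists_galois {ι : Type*} (s : Finset ι) (a : ι → ℂ) (ha : ∀ i ∈ s, IsAlgebraic ℚ (a i)) :
    ∃ L : IntermediateField ℚ ℂ, FiniteDimensional ℚ L ∧ IsGalois ℚ L ∧ ∀ i ∈ s, a i ∈ L := by
  classical
  set f : ℚ[X] := ∏ i ∈ s, minpoly ℚ (a i) with hf
  have hf0 : f ≠ 0 := Finset.prod_ne_zero_iff.2 fun i hi => minpoly.ne_zero (ha i hi).isIntegral
  have hs : IsSplittingField ℚ (IntermediateField.adjoin ℚ (f.rootSet ℂ)) f :=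
    IntermediateField.adjoin_rootSet_isSplittingField (IsAlgClosed.splits _)
  have hn : Normal ℚ (IntermediateField.adjoin ℚ (f.rootSet ℂ)) := Normal.of_isSplittingField f
  have hfd : FiniteDimensional ℚ (IntermediateField.adjoin ℚ (f.rootSet ℂ)) :=
    IsSplittingField.finiteDimensional _ f
  refine ⟨IntermediateField.adjoin ℚ (f.rootSet ℂ), hfd, ⟨⟩, fun i hi => ?_⟩
  apply IntermediateField.subset_adjoin
  rw [mem_rootSet]
  refine ⟨hf0, ?_⟩
  rw [hf, map_prod]
  exact Finset.prod_eq_zero hi (minpoly.aeval ℚ (a i))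

/-- **The Lindemann - Weierstrass theorem** (Baker's form): distinct algebraic numbers `a i` and
algebraic numbers `b i` with `∑ b i exp(a i) = 0` have `b = 0`. -/
theorem eq_zero_of_sum_eq_zero {ι : Type*} (s : Finset ι) (a b : ι → ℂ)
    (ha : ∀ i ∈ s, IsAlgebraic ℚ (a i)) (hb : ∀ i ∈ s, IsAlgebraic ℚ (b i))
    (hinj : Set.InjOn a s) (h : ∑ i ∈ s, b i * Complex.exp (a i) = 0) : ∀ i ∈ s, b i = 0 := by
  classical
  obtain ⟨L, _, _, hL⟩ := exists_galois (s.disjSum s) (Sum.elim a b) (by
    intro i hi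
    rcases Finset.mem_disjSum.1 hi with ⟨j, hj, rfl⟩ | ⟨j, hj, rfl⟩
    · exact ha j hj
    · exact hb j hj)
  have hLa : ∀ i ∈ s, a i ∈ L := fun i hi => hL (Sum.inl i) (Finset.inl_mem_disjSum.2 hi)
  have hLb : ∀ i ∈ s, b i ∈ L := fun i hi => hL (Sum.inr i) (Finset.inr_mem_disjSum.2 hi)
  set α : s → L := fun i => ⟨a i, hLa i i.2⟩ with hα
  set β : s → L := fun i => ⟨b i, hLb i i.2⟩ with hβ
  have hαinj : Function.Injective α := by
    intro i j hij
    have : a i = a j := congrArg (fun x : L => (x : ℂ)) hij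
    exact Subtype.ext (hinj i.2 j.2 this)
  set F : AddMonoidAlgebra L L := ∑ i : s, AddMonoidAlgebra.single (α i) (β i) with hF
  have hev : ev (algebraMap L ℂ) F = 0 := by
    rw [hF, map_sum]
    rw [← h, ← Finset.sum_coe_sort s]
    refine Finset.sum_congr rfl fun i _ => ?_
    rw [ev_single]
    rfl
  have hF0 : F = 0 := by
    by_contra hne
    exact ev_ne_zero (algebraMap L ℂ) hne hev
  intro i hi
  have h1 : F.coeff (α ⟨i, hi⟩) = β ⟨i, hi⟩ := by
    rw [hF]
    simp only [AddMonoidAlgebra.coeff_sum, AddMonoidAlgebra.coeff_single]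
    rw [Finsupp.finsetSum_apply, Finset.sum_eq_single ⟨i, hi⟩]
    · simp
    · intro j _ hj
      exact Finsupp.single_eq_of_ne (fun e => hj (hαinj e.symm))
    · intro h; exact absurd (Finset.mem_univ _) h
  rw [hF0] at h1
  have h2 : (β ⟨i, hi⟩ : ℂ) = 0 := by rw [← h1]; rfl
  exact h2

/-- The numbers `exp a`, `a` algebraic, are linearly independent over the algebraic numbers. -/
theorem linearIndependent_exp :
    LinearIndependent (algebraicClosure ℚ ℂ) (fun a : algebraicClosure ℚ ℂ => Complex.exp (a : ℂ)) := by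
  rw [linearIndependent_iff']
  intro s g hg i hi
  have h := eq_zero_of_sum_eq_zero s (fun a : algebraicClosure ℚ ℂ => (a : ℂ))
    (fun a => ((g a : algebraicClosure ℚ ℂ) : ℂ))
    (fun a _ => mem_algebraicClosure_iff.1 a.2) (fun a _ => mem_algebraicClosure_iff.1 (g a).2)
    (fun x _ y _ hxy => Subtype.ext hxy) (by
      rw [← hg]
      refine Finset.sum_congr rfl fun a _ => ?_
      rfl) i hi
  exact Subtype.ext h

/-- A sum `∑ b i exp(a i)` with distinct non-zero algebraic `a i` and algebraic `b i`, not all zero, is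
transcendental. -/
theorem transcendental_sum {ι : Type*} (s : Finset ι) (a b : ι → ℂ)
    (ha : ∀ i ∈ s, IsAlgebraic ℚ (a i)) (hb : ∀ i ∈ s, IsAlgebraic ℚ (b i))
    (ha0 : ∀ i ∈ s, a i ≠ 0) (hinj : Set.InjOn a s) (hb0 : ∃ i ∈ s, b i ≠ 0) :
    Transcendental ℚ (∑ i ∈ s, b i * Complex.exp (a i)) := by
  classical
  intro halg
  obtain ⟨i, hi, hbi⟩ := hb0
  have h := eq_zero_of_sum_eq_zero (Finset.insertNone s)
    (fun o => o.elim 0 a) (fun o => o.elim (-∑ i ∈ s, b i * Complex.exp (a i)) b)
    (by
      rintro (_ | j) hj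
      · exact isAlgebraic_zero
      · exact ha j (Finset.some_mem_insertNone.1 hj))
    (by
      rintro (_ | j) hj
      · exact halg.neg
      · exact hb j (Finset.some_mem_insertNone.1 hj))
    (by
      rintro (_ | j) hj (_ | k) hk hjk
      · rfl
      · exact absurd hjk.symm (ha0 k (Finset.some_mem_insertNone.1 hk))
      · exact absurd hjk (ha0 j (Finset.some_mem_insertNone.1 hj))
      · exact congrArg some (hinj (Finset.some_mem_insertNone.1 hj)
          (Finset.some_mem_insertNone.1 hk) hjk))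
    (by
      rw [Finset.sum_insertNone]
      simp) (some i) (Finset.some_mem_insertNone.2 hi)
  exact hbi h

/-- **Hermite - Lindemann**: `exp a` is transcendental for every algebraic `a ≠ 0`. -/
theorem transcendental_exp {a : ℂ} (ha : IsAlgebraic ℚ a) (h0 : a ≠ 0) :
    Transcendental ℚ (Complex.exp a) := by
  have h := transcendental_sum {()} (fun _ => a) (fun _ => 1) (fun _ _ => ha)
    (fun _ _ => isAlgebraic_one) (fun _ _ => h0) (by intro _ _ _ _ _; rfl)
    ⟨(), Finset.mem_singleton_self _, one_ne_zero⟩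
  simpa using h

/-- The only algebraic number whose exponential is algebraic is `0`. -/
theorem isAlgebraic_exp_iff {a : ℂ} (ha : IsAlgebraic ℚ a) :
    IsAlgebraic ℚ (Complex.exp a) ↔ a = 0 := by
  constructor
  · intro h
    by_contra h0
    exact transcendental_exp ha h0 h
  · rintro rfl
    rw [Complex.exp_zero]
    exact isAlgebraic_one

/-- Every non-zero logarithm of an algebraic number is transcendental. -/
theorem transcendental_of_exp {a : ℂ} (ha : IsAlgebraic ℚ (Complex.exp a)) (h0 : a ≠ 0) :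
    Transcendental ℚ a := fun h => transcendental_exp h h0 ha

/-- `log a` is transcendental for algebraic `a ≠ 0, 1`. -/
theorem transcendental_log {a : ℂ} (ha : IsAlgebraic ℚ a) (h0 : a ≠ 0) (h1 : a ≠ 1) :
    Transcendental ℚ (Complex.log a) := by
  apply transcendental_of_exp
  · rwa [Complex.exp_log h0]
  · intro h
    apply h1
    rw [← Complex.exp_log h0, h, Complex.exp_zero]

/-! ### Real numbers -/

lemma isAlgebraic_ofReal_iff {x : ℝ} : IsAlgebraic ℚ (x : ℂ) ↔ IsAlgebraic ℚ x :=
  isAlgebraic_algebraMap_iff (algebraMap ℝ ℂ).injective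

lemma transcendental_ofReal_iff {x : ℝ} : Transcendental ℚ (x : ℂ) ↔ Transcendental ℚ x :=
  not_congr isAlgebraic_ofReal_iff

/-- `exp x` is transcendental for every real algebraic `x ≠ 0`. -/
theorem transcendental_rexp {x : ℝ} (hx : IsAlgebraic ℚ x) (h0 : x ≠ 0) :
    Transcendental ℚ (Real.exp x) := by
  rw [← transcendental_ofReal_iff, Complex.ofReal_exp]
  exact transcendental_exp (isAlgebraic_ofReal_iff.2 hx) (by exact_mod_cast h0)

/-- **Hermite (1873)**: `e` is transcendental. -/
theorem transcendental_e : Transcendental ℚ (Real.exp 1) :=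
  transcendental_rexp isAlgebraic_one one_ne_zero

lemma isAlgebraic_I : IsAlgebraic ℚ Complex.I := by
  refine ⟨X ^ 2 + 1, ?_, ?_⟩
  · exact (monic_X_pow_add (n := 2) (by rw [degree_one]; norm_num)).ne_zero
  · simp

/-- **Lindemann (1882)**: `π` is transcendental. -/
theorem transcendental_pi : Transcendental ℚ Real.pi := by
  intro h
  have h1 : IsAlgebraic ℚ ((Real.pi : ℂ) * Complex.I) := (isAlgebraic_ofReal_iff.2 h).mul isAlgebraic_I
  refine transcendental_exp h1 ?_ ?_
  · exact mul_ne_zero (by exact_mod_cast Real.pi_ne_zero) Complex.I_ne_zero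
  · rw [Complex.exp_pi_mul_I]
    exact isAlgebraic_one.neg

/-- **The circle cannot be squared**: `√π` is transcendental. -/
theorem transcendental_sqrt_pi : Transcendental ℚ (√Real.pi) := by
  intro h
  apply transcendental_pi
  rw [← Real.sq_sqrt Real.pi_pos.le]
  exact h.pow 2

/-- `log x` is transcendental for every real algebraic `x > 0`, `x ≠ 1`. -/
theorem transcendental_rlog {x : ℝ} (hx : IsAlgebraic ℚ x) (h0 : 0 < x) (h1 : x ≠ 1) :
    Transcendental ℚ (Real.log x) := by
  intro h
  refine transcendental_rexp h ?_ (by rwa [Real.exp_log h0])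
  exact Real.log_ne_zero_of_pos_of_ne_one h0 h1

/-- At least one of `e + π` and `e π` is transcendental. -/
theorem transcendental_e_add_pi_or : Transcendental ℚ (Real.exp 1 + Real.pi) ∨
    Transcendental ℚ (Real.exp 1 * Real.pi) := by
  by_contra h
  rw [not_or] at h
  obtain ⟨h1, h2⟩ := h
  rw [Transcendental, not_not] at h1 h2
  apply transcendental_e
  have h3 : IsAlgebraic ℚ ((Real.exp 1 - Real.pi) ^ 2) := by
    have : (Real.exp 1 - Real.pi) ^ 2 =
        (Real.exp 1 + Real.pi) ^ 2 - (4 : ℚ) • (Real.exp 1 * Real.pi) := by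
      rw [Algebra.smul_def]; simp; ring
    rw [this]
    exact (h1.pow 2).sub (h2.smul _)
  have h4 : IsAlgebraic ℚ (Real.exp 1 - Real.pi) := h3.of_pow (by norm_num)
  have h5 : Real.exp 1 =
      (1 / 2 : ℚ) • ((Real.exp 1 + Real.pi) + (Real.exp 1 - Real.pi)) := by
    rw [Algebra.smul_def]; simp; ring
  rw [h5]
  exact (h1.add h4).smul _

end Fermat.Agent.Cor.LW
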