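/-
Lindemann - Weierstrass: algebraic independence (helper85).
-/
import Fermat.Agent.Corollaries.LW.Main

/-!
# The Lindemann - Weierstrass theorem, V: algebraic independence

* `algebraicIndependent_exp`: if the algebraic numbers `a i` are linearly independent over `ℚ`, then
  the numbers `exp (a i)` are algebraically independent over the field of algebraic numbers;
* `algebraicIndependent_exp_iff`: for algebraic `a i` the numbers `exp (a i)` are algebraically
  independent over `ℚ` if and only if the `a i` are linearly independent over `ℚ`.
-/

namespace Fermat.Agent.Cor.LW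

variable {ι : Type*} {a : ι → ℂ}

lemma prod_exp_pow (a : ι → ℂ) (m : ι →₀ ℕ) :
    (m.prod fun i k => Complex.exp (a i) ^ k) = Complex.exp (Finsupp.linearCombination ℕ a m) := by
  rw [Finsupp.linearCombination_apply, Finsupp.sum, Complex.exp_sum, Finsupp.prod]
  refine Finset.prod_congr rfl fun i _ => ?_
  rw [nsmul_eq_mul, Complex.exp_nat_mul]

/-- **The Lindemann - Weierstrass theorem**: if the algebraic numbers `a i` are linearly independent
over `ℚ`, then the numbers `exp (a i)` are algebraically independent over the algebraic numbers. -/
theorem algebraicIndependent_exp (ha : ∀ i, IsAlgebraic ℚ (a i)) (h : LinearIndependent ℚ a) :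
    AlgebraicIndependent (algebraicClosure ℚ ℂ) (fun i => Complex.exp (a i)) := by
  classical
  have hinj : Function.Injective (Finsupp.linearCombination ℕ a) :=
    h.restrict_scalars (fun m n hmn => by simpa using hmn)
  rw [algebraicIndependent_iff]
  intro p hp
  rw [MvPolynomial.aeval_def, MvPolynomial.eval₂_eq] at hp
  have h1 := eq_zero_of_sum_eq_zero p.support (fun m => Finsupp.linearCombination ℕ a m)
    (fun m => ((p.coeff m : algebraicClosure ℚ ℂ) : ℂ)) (fun m _ => ?_)
    (fun m _ => mem_algebraicClosure_iff.1 (p.coeff m).2) hinj.injOn ?_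
  · ext m
    by_cases hm : m ∈ p.support
    · rw [h1 m hm]; simp
    · rw [MvPolynomial.notMem_support_iff.1 hm]; simp
  · rw [Finsupp.linearCombination_apply, Finsupp.sum]
    refine Finset.sum_induction _ (IsAlgebraic ℚ) (fun _ _ => IsAlgebraic.add) isAlgebraic_zero ?_
    intro i _
    rw [nsmul_eq_mul]
    exact (isAlgebraic_natCast _).mul (ha i)
  · rw [← hp]
    refine Finset.sum_congr rfl fun m _ => ?_
    rw [← prod_exp_pow]
    rfl

lemma linearIndependent_int_of_nat {a : ι → ℂ}
    (h : Function.Injective (Finsupp.linearCombination ℕ a)) : LinearIndependent ℤ a := by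
  rw [linearIndependent_iff]
  intro g hg
  have key : Finsupp.linearCombination ℕ a (g.mapRange Int.toNat rfl) =
      Finsupp.linearCombination ℕ a ((-g).mapRange Int.toNat rfl) := by
    rw [← sub_eq_zero, ← hg]
    rw [Finsupp.linearCombination_apply, Finsupp.linearCombination_apply,
      Finsupp.linearCombination_apply, Finsupp.sum_mapRange_index (by simp),
      Finsupp.sum_mapRange_index (by simp), Finsupp.sum_neg_index (by simp), Finsupp.sum,
      Finsupp.sum, Finsupp.sum, ← Finset.sum_sub_distrib]
    refine Finset.sum_congr rfl fun i _ => ?_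
    rw [← natCast_zsmul, ← natCast_zsmul, ← sub_smul, Int.toNat_sub_toNat_neg]
  have h1 := h key
  ext i
  have h2 := DFunLike.congr_fun h1 i
  simp only [Finsupp.mapRange_apply, Finsupp.coe_neg, Pi.neg_apply] at h2
  simp only [Finsupp.coe_zero, Pi.zero_apply]
  omega

/-- For algebraic `a i`, the numbers `exp (a i)` are algebraically independent over `ℚ` if and only if
the `a i` are linearly independent over `ℚ`. -/
theorem algebraicIndependent_exp_iff (ha : ∀ i, IsAlgebraic ℚ (a i)) :
    AlgebraicIndependent ℚ (fun i => Complex.exp (a i)) ↔ LinearIndependent ℚ a := by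
  constructor
  · intro h
    rw [← LinearIndependent.iff_fractionRing (R := ℤ)]
    apply linearIndependent_int_of_nat
    intro m n hmn
    have h1 : MvPolynomial.aeval (fun i => Complex.exp (a i))
        (MvPolynomial.monomial m (1 : ℚ)) =
        MvPolynomial.aeval (fun i => Complex.exp (a i)) (MvPolynomial.monomial n (1 : ℚ)) := by
      rw [MvPolynomial.aeval_monomial, MvPolynomial.aeval_monomial, prod_exp_pow, prod_exp_pow, hmn]
    have h2 := h h1
    exact MvPolynomial.monomial_left_injective one_ne_zero h2
  · intro h
    exact (algebraicIndependent_exp ha h).restrictScalars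
      (algebraMap ℚ (algebraicClosure ℚ ℂ)).injective

end Fermat.Agent.Cor.LW
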