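/-
Lindemann - Weierstrass: the transcendence degree (helper85).
-/
import Fermat.Agent.Corollaries.LW.Indep

/-!
# The Lindemann - Weierstrass theorem, VI: the transcendence degree

`trdeg_adjoin_exp`: for algebraic numbers `a i` the transcendence degree of the field generated by
the numbers `exp (a i)` is the dimension of the space spanned by the `a i` over `ℚ`.
-/

namespace Fermat.Agent.Cor.LW

lemma isAlgebraic_zpow {R K : Type*} [CommRing R] [IsDomain R] [Field K] [Algebra R K] {y : K}
    (h : IsAlgebraic R y) (n : ℤ) : IsAlgebraic R (y ^ n) := by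
  cases n with
  | ofNat n => rw [Int.ofNat_eq_natCast, zpow_natCast]; exact h.pow n
  | negSucc n => rw [zpow_negSucc]; exact (h.pow _).inv

/-- **The Lindemann - Weierstrass theorem**, transcendence degree form. -/
theorem trdeg_adjoin_exp {ι : Type*} {a : ι → ℂ} (ha : ∀ i, IsAlgebraic ℚ (a i)) :
    Algebra.trdeg ℚ (IntermediateField.adjoin ℚ (Set.range fun i => Complex.exp (a i))) =
      Module.rank ℚ (Submodule.span ℚ (Set.range a)) := by
  classical
  obtain ⟨B, hB, hspan, hli⟩ := exists_linearIndependent ℚ (Set.range a)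
  set E := IntermediateField.adjoin ℚ (Set.range fun i => Complex.exp (a i)) with hE
  have hBE : ∀ b : B, Complex.exp (b : ℂ) ∈ E := by
    intro b
    obtain ⟨i, hi⟩ := hB b.2
    apply IntermediateField.subset_adjoin
    exact ⟨i, by simp [hi]⟩
  set x : B → E := fun b => ⟨Complex.exp b, hBE b⟩ with hx
  have hind : AlgebraicIndependent ℚ x := by
    have h1 : AlgebraicIndependent ℚ (fun b : B => Complex.exp (b : ℂ)) := by
      rw [algebraicIndependent_exp_iff]
      · exact hli
      · intro b
        obtain ⟨i, hi⟩ := hB b.2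
        rw [← hi]; exact ha i
    exact AlgebraicIndependent.of_comp E.val h1
  set R := Algebra.adjoin ℚ (Set.range x) with hR
  -- elements of the span
  have key : ∀ v ∈ Submodule.span ℚ B, ∃ (N : ℕ) (y : E), N ≠ 0 ∧ IsAlgebraic R y ∧
      (y : ℂ) = Complex.exp (N * v) := by
    intro v hv
    induction hv using Submodule.span_induction with
    | mem v hv =>
      refine ⟨1, x ⟨v, hv⟩, one_ne_zero, ?_, by simp [hx]⟩
      exact isAlgebraic_algebraMap
        (⟨x ⟨v, hv⟩, Algebra.subset_adjoin (Set.mem_range_self _)⟩ : R)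
    | zero => exact ⟨1, 1, one_ne_zero, isAlgebraic_one, by simp⟩
    | add v w _ _ hv hw =>
      obtain ⟨N, y, hN, hy, ey⟩ := hv
      obtain ⟨M, z, hM, hz, ez⟩ := hw
      refine ⟨N * M, y ^ M * z ^ N, mul_ne_zero hN hM, (hy.pow M).mul (hz.pow N), ?_⟩
      push_cast
      rw [ey, ez, ← Complex.exp_nat_mul, ← Complex.exp_nat_mul, ← Complex.exp_add]
      congr 1; ring
    | smul q v _ hv =>
      obtain ⟨N, y, hN, hy, ey⟩ := hv
      refine ⟨N * q.den, y ^ q.num, mul_ne_zero hN q.den_ne_zero, isAlgebraic_zpow hy _, ?_⟩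
      have e1 : ((y ^ q.num : E) : ℂ) = (y : ℂ) ^ q.num := by
        exact map_zpow₀ E.val y q.num
      rw [e1, ey, ← Complex.exp_int_mul]
      congr 1
      have e2 : ((q.num : ℚ) : ℂ) = ((q * q.den : ℚ) : ℂ) := by rw [Rat.mul_den_eq_num]
      push_cast at e2
      rw [Algebra.smul_def, eq_ratCast]
      push_cast
      linear_combination (N : ℂ) * v * e2
  have hgen : ∀ i (h : Complex.exp (a i) ∈ E), IsAlgebraic R (⟨Complex.exp (a i), h⟩ : E) := by
    intro i h
    obtain ⟨N, y, hN, hy, ey⟩ := key (a i) (by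
      rw [hspan]; exact Submodule.subset_span (Set.mem_range_self i))
    apply IsAlgebraic.of_pow (n := N) (Nat.pos_of_ne_zero hN)
    have : (⟨Complex.exp (a i), h⟩ : E) ^ N = y := by
      apply Subtype.ext
      rw [ey, Complex.exp_nat_mul]
      rfl
    rwa [this]
  have hbasis : IsTranscendenceBasis ℚ x := by
    rw [hind.isTranscendenceBasis_iff_isAlgebraic]
    refine ⟨fun z => ?_⟩
    obtain ⟨z, hz⟩ := z
    refine IntermediateField.adjoin_induction ℚ (p := fun z hz => IsAlgebraic R (⟨z, hz⟩ : E))
      ?_ ?_ ?_ ?_ ?_ hz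
    · rintro z ⟨i, rfl⟩
      exact hgen i _
    · intro q
      exact (isAlgebraic_algebraMap (R := ℚ) (A := E) q).extendScalars
        (algebraMap ℚ R).injective
    · intro z w hz hw h1 h2
      exact h1.add h2
    · intro z hz h1
      exact h1.inv
    · intro z w hz hw h1 h2
      exact h1.mul h2
  rw [← hbasis.cardinalMk_eq_trdeg, ← hspan, rank_span_set hli]

end Fermat.Agent.Cor.LW
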