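/-
Lindemann - Weierstrass: trigonometric functions (helper85).
-/
import Fermat.Agent.Corollaries.LW.Main

/-!
# The Lindemann - Weierstrass theorem, IV: trigonometric and hyperbolic functions

The values of `sin`, `cos`, `tan`, `sinh`, `cosh`, `tanh` at algebraic numbers `≠ 0` and the values
of their inverse functions are transcendental. Fixed points of `cos` are transcendental (Dottie's
number), and so are the solutions of `x exp x = a`, `a ≠ 0` algebraic (Lambert's function).
-/

namespace Fermat.Agent.Cor.LW

lemma isAlgebraic_mul_I {a : ℂ} (h : IsAlgebraic ℚ a) : IsAlgebraic ℚ (a * Complex.I) :=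
  h.mul isAlgebraic_I

lemma isAlgebraic_two : IsAlgebraic ℚ (2 : ℂ) := by
  have := isAlgebraic_natCast (R := ℚ) (A := ℂ) 2
  exact_mod_cast this

/-- `u exp a + v exp(-a)` is transcendental for algebraic `a ≠ 0` and `u`, `v`, not both zero. -/
theorem transcendental_pair {a u v : ℂ} (ha : IsAlgebraic ℚ a) (h0 : a ≠ 0) (hu : IsAlgebraic ℚ u)
    (hv : IsAlgebraic ℚ v) (hu0 : u ≠ 0) :
    Transcendental ℚ (u * Complex.exp a + v * Complex.exp (-a)) := by
  have hne : a ≠ -a := fun e => h0 (self_eq_neg.1 e)
  have h := transcendental_sum (Finset.univ : Finset Bool)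
    (fun t => cond t a (-a)) (fun t => cond t u v)
    (by rintro (_ | _) _
        · exact ha.neg
        · exact ha)
    (by rintro (_ | _) _
        · exact hv
        · exact hu)
    (by rintro (_ | _) _
        · exact neg_ne_zero.2 h0
        · exact h0)
    (by
      rintro (_ | _) _ (_ | _) _ h
      · rfl
      · exact absurd h.symm hne
      · exact absurd h hne
      · rfl)
    ⟨true, Finset.mem_univ _, hu0⟩
  rw [Fintype.sum_bool] at h
  exact h

/-- `sin a` is transcendental for every algebraic `a ≠ 0`. -/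
theorem transcendental_sin {a : ℂ} (ha : IsAlgebraic ℚ a) (h0 : a ≠ 0) :
    Transcendental ℚ (Complex.sin a) := by
  have hI : IsAlgebraic ℚ (Complex.I / 2) := by
    rw [div_eq_mul_inv]; exact isAlgebraic_I.mul isAlgebraic_two.inv
  have h := transcendental_pair (isAlgebraic_mul_I ha) (mul_ne_zero h0 Complex.I_ne_zero)
    hI.neg hI (neg_ne_zero.2 (div_ne_zero Complex.I_ne_zero two_ne_zero))
  have e : Complex.sin a = -(Complex.I / 2) * Complex.exp (a * Complex.I) +
      Complex.I / 2 * Complex.exp (-(a * Complex.I)) := by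
    rw [Complex.sin, neg_mul a]; ring
  rwa [e]

/-- `cos a` is transcendental for every algebraic `a ≠ 0`. -/
theorem transcendental_cos {a : ℂ} (ha : IsAlgebraic ℚ a) (h0 : a ≠ 0) :
    Transcendental ℚ (Complex.cos a) := by
  have h := transcendental_pair (isAlgebraic_mul_I ha) (mul_ne_zero h0 Complex.I_ne_zero)
    isAlgebraic_two.inv isAlgebraic_two.inv (inv_ne_zero two_ne_zero)
  have e : Complex.cos a = (2 : ℂ)⁻¹ * Complex.exp (a * Complex.I) +
      (2 : ℂ)⁻¹ * Complex.exp (-(a * Complex.I)) := by
    rw [Complex.cos, neg_mul a]; ring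
  rwa [e]

/-- `sinh a` is transcendental for every algebraic `a ≠ 0`. -/
theorem transcendental_sinh {a : ℂ} (ha : IsAlgebraic ℚ a) (h0 : a ≠ 0) :
    Transcendental ℚ (Complex.sinh a) := by
  have h := transcendental_pair ha h0 isAlgebraic_two.inv isAlgebraic_two.inv.neg
    (inv_ne_zero two_ne_zero)
  have e : Complex.sinh a = (2 : ℂ)⁻¹ * Complex.exp a + -(2 : ℂ)⁻¹ * Complex.exp (-a) := by
    rw [Complex.sinh]; ring
  rwa [e]

/-- `cosh a` is transcendental for every algebraic `a ≠ 0`. -/
theorem transcendental_cosh {a : ℂ} (ha : IsAlgebraic ℚ a) (h0 : a ≠ 0) :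
    Transcendental ℚ (Complex.cosh a) := by
  have h := transcendental_pair ha h0 isAlgebraic_two.inv isAlgebraic_two.inv
    (inv_ne_zero two_ne_zero)
  have e : Complex.cosh a = (2 : ℂ)⁻¹ * Complex.exp a + (2 : ℂ)⁻¹ * Complex.exp (-a) := by
    rw [Complex.cosh]; ring
  rwa [e]

/-- `tan a` is transcendental for every algebraic `a ≠ 0`. -/
theorem transcendental_tan {a : ℂ} (ha : IsAlgebraic ℚ a) (h0 : a ≠ 0) :
    Transcendental ℚ (Complex.tan a) := by
  intro h
  have hc := transcendental_cos ha h0
  have hc0 : Complex.cos a ≠ 0 := fun e => hc (by rw [e]; exact isAlgebraic_zero)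
  apply hc
  apply IsAlgebraic.of_pow (n := 2) (by norm_num)
  have e1 : Complex.tan a * Complex.cos a = Complex.sin a := Complex.tan_mul_cos hc0
  have e2 : Complex.cos a ^ 2 * (Complex.tan a ^ 2 + 1) = 1 := by
    linear_combination (Complex.tan a * Complex.cos a + Complex.sin a) * e1 +
      Complex.sin_sq_add_cos_sq a
  have e3 : Complex.cos a ^ 2 = (Complex.tan a ^ 2 + 1)⁻¹ := eq_inv_of_mul_eq_one_left e2
  rw [e3]
  exact ((h.pow 2).add isAlgebraic_one).inv

/-- `tanh a` is transcendental for every algebraic `a ≠ 0`. -/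
theorem transcendental_tanh {a : ℂ} (ha : IsAlgebraic ℚ a) (h0 : a ≠ 0) :
    Transcendental ℚ (Complex.tanh a) := by
  intro h
  have hc := transcendental_cosh ha h0
  have hc0 : Complex.cosh a ≠ 0 := fun e => hc (by rw [e]; exact isAlgebraic_zero)
  apply hc
  apply IsAlgebraic.of_pow (n := 2) (by norm_num)
  have e1 : Complex.tanh a * Complex.cosh a = Complex.sinh a := by
    rw [Complex.tanh_eq_sinh_div_cosh, div_mul_cancel₀ _ hc0]
  have e2 : Complex.cosh a ^ 2 * (1 - Complex.tanh a ^ 2) = 1 := by
    linear_combination -(Complex.tanh a * Complex.cosh a + Complex.sinh a) * e1 +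
      Complex.cosh_sq_sub_sinh_sq a
  have e3 : Complex.cosh a ^ 2 = (1 - Complex.tanh a ^ 2)⁻¹ := eq_inv_of_mul_eq_one_left e2
  rw [e3]
  exact (isAlgebraic_one.sub (h.pow 2)).inv

/-! ### Real numbers -/

section Real

variable {x : ℝ}

/-- `sin x` is transcendental for every real algebraic `x ≠ 0`. -/
theorem transcendental_rsin (hx : IsAlgebraic ℚ x) (h0 : x ≠ 0) : Transcendental ℚ (Real.sin x) := by
  rw [← transcendental_ofReal_iff, Complex.ofReal_sin]
  exact transcendental_sin (isAlgebraic_ofReal_iff.2 hx) (by exact_mod_cast h0)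

/-- `cos x` is transcendental for every real algebraic `x ≠ 0`. -/
theorem transcendental_rcos (hx : IsAlgebraic ℚ x) (h0 : x ≠ 0) : Transcendental ℚ (Real.cos x) := by
  rw [← transcendental_ofReal_iff, Complex.ofReal_cos]
  exact transcendental_cos (isAlgebraic_ofReal_iff.2 hx) (by exact_mod_cast h0)

/-- `tan x` is transcendental for every real algebraic `x ≠ 0`. -/
theorem transcendental_rtan (hx : IsAlgebraic ℚ x) (h0 : x ≠ 0) : Transcendental ℚ (Real.tan x) := by
  rw [← transcendental_ofReal_iff, Complex.ofReal_tan]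
  exact transcendental_tan (isAlgebraic_ofReal_iff.2 hx) (by exact_mod_cast h0)

/-- `arcsin x` is transcendental for every real algebraic `x ≠ 0`, `|x| ≤ 1`. -/
theorem transcendental_arcsin (hx : IsAlgebraic ℚ x) (h0 : x ≠ 0) (h1 : -1 ≤ x) (h2 : x ≤ 1) :
    Transcendental ℚ (Real.arcsin x) := by
  intro h
  refine transcendental_rsin h ?_ (by rwa [Real.sin_arcsin h1 h2])
  intro e
  apply h0
  rw [← Real.sin_arcsin h1 h2, e, Real.sin_zero]

/-- `arccos x` is transcendental for every real algebraic `x ≠ 1`, `|x| ≤ 1`. -/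
theorem transcendental_arccos (hx : IsAlgebraic ℚ x) (h0 : x ≠ 1) (h1 : -1 ≤ x) (h2 : x ≤ 1) :
    Transcendental ℚ (Real.arccos x) := by
  intro h
  refine transcendental_rcos h ?_ (by rwa [Real.cos_arccos h1 h2])
  intro e
  apply h0
  rw [← Real.cos_arccos h1 h2, e, Real.cos_zero]

/-- `arctan x` is transcendental for every real algebraic `x ≠ 0`. -/
theorem transcendental_arctan (hx : IsAlgebraic ℚ x) (h0 : x ≠ 0) :
    Transcendental ℚ (Real.arctan x) := by
  intro h
  refine transcendental_rtan h ?_ (by rwa [Real.tan_arctan])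
  intro e
  apply h0
  rw [← Real.tan_arctan x, e, Real.tan_zero]

/-- An angle whose sine or cosine is algebraic is a transcendental number, if it is not `0`
(in particular every rational multiple `≠ 0` of `π`). -/
theorem transcendental_of_cos (hx : IsAlgebraic ℚ (Real.cos x)) (h0 : x ≠ 0) :
    Transcendental ℚ x := fun h => transcendental_rcos h h0 hx

/-- **Dottie's number**: a fixed point of the cosine is transcendental. -/
theorem transcendental_of_cos_eq_self (h : Real.cos x = x) : Transcendental ℚ x := by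
  intro hx
  by_cases h0 : x = 0
  · rw [h0, Real.cos_zero] at h; exact one_ne_zero h
  · exact transcendental_rcos hx h0 (by rwa [h])

/-- **Lambert's function**: a solution of `x exp x = a` with algebraic `a ≠ 0` is transcendental. -/
theorem transcendental_of_mul_exp_eq {z a : ℂ} (ha : IsAlgebraic ℚ a) (h0 : a ≠ 0)
    (h : z * Complex.exp z = a) : Transcendental ℚ z := by
  intro hz
  have hz0 : z ≠ 0 := by rintro rfl; exact h0 (by rw [← h, zero_mul])
  apply transcendental_exp hz hz0
  have : Complex.exp z = a * z⁻¹ := by rw [← h]; field_simp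
  rw [this]
  exact ha.mul hz.inv

end Real

end Fermat.Agent.Cor.LW
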